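import Fermat.Agent.EllenbergVenkatesh.Injection
import Fermat.Agent.ArtinHooley.PrimeCount
import Fermat.Agent.ExtVanish.Euler

/-!
# Small split primes on the Riemann hypothesis

On the hypothesis for `ζ_K` the primes of degree one, unramified over `ℚ`, of norm at most `X`
number `X / log X` up to `O ((1 + log |d|) √X (1 + log X) ^ 4)`, so the class group has
`O (|d| ^ (1/2 - 1 / (2 l (n - 1)) + ε))` elements killed by `l`.
-/

set_option autoImplicit false
set_option linter.style.haveILetI false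

noncomputable section

namespace FA.EllenbergVenkatesh

open NumberField IsDedekindDomain Module MeasureTheory
open scoped Classical

variable {K : Type} [Field K] [NumberField K]

theorem not_split {v : HeightOneSpectrum (𝓞 K)} (hv : ¬ IsSplitPrime v.asIdeal) :
    ∃ p : ℕ, p.Prime ∧ (p : 𝓞 K) ∈ v.asIdeal ∧
      (p ^ 2 ≤ Ideal.absNorm v.asIdeal ∨ p ∣ (discr K).natAbs) := by
  obtain ⟨p, hp, hpv⟩ := FA.Ext.exists_rat_prime_mem v
  refine ⟨p, hp, hpv, ?_⟩
  have hdvd : Ideal.absNorm v.asIdeal ∣ p ^ finrank ℚ K := by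
    have h := map_dvd Ideal.absNorm (Ideal.dvd_span_singleton.2 hpv)
    rwa [Ideal.absNorm_span_singleton,
      show ((p : 𝓞 K)) = algebraMap ℤ (𝓞 K) (p : ℤ) by simp, Algebra.norm_algebraMap,
      RingOfIntegers.rank, Int.natAbs_pow, Int.natAbs_natCast] at h
  obtain ⟨f, -, hf⟩ := (Nat.dvd_prime_pow hp).1 hdvd
  have h2 := FA.Ext.two_le_absNorm v
  rcases lt_or_ge f 2 with hf2 | hf2
  · right
    interval_cases f
    · rw [hf, pow_zero] at h2; omega
    rw [pow_one] at hf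
    rw [IsSplitPrime, hf] at hv
    have hsq : v.asIdeal ^ 2 ∣ Ideal.span {(p : 𝓞 K)} := not_not.1 fun h => hv ⟨hp, h⟩
    haveI : (Ideal.span {(p : ℤ)}).IsMaximal :=
      PrincipalIdealRing.isMaximal_of_irreducible (Nat.prime_iff_prime_int.1 hp).irreducible
    have hdiff : v.asIdeal ∣ differentIdeal ℤ (𝓞 K) := by
      simpa using pow_sub_one_dvd_differentIdeal ℤ (p := Ideal.span {(p : ℤ)}) v.asIdeal 2
        (by simpa using hp.ne_zero) (by rwa [Ideal.map_span, Set.image_singleton, map_natCast])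
    have hmem := Ideal.dvd_iff_le.1 hdiff (discr_mem_differentIdeal K (𝓞 K))
    haveI := v.isPrime
    have hunder : v.asIdeal.under ℤ = Ideal.span {(p : ℤ)} :=
      (Ideal.IsMaximal.eq_of_le inferInstance (Ideal.IsPrime.ne_top inferInstance)
        ((Ideal.span_singleton_le_iff_mem _).2 (by rw [Ideal.mem_comap, map_natCast]; exact hpv))).symm
    have : discr K ∈ v.asIdeal.under ℤ := by rw [Ideal.mem_comap, eq_intCast]; exact hmem
    rw [hunder, Ideal.mem_span_singleton] at this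
    exact Int.natCast_dvd.1 this
  · exact Or.inl (hf ▸ Nat.pow_le_pow_right hp.pos hf2)

theorem card_primes_over_le (K : Type) [Field K] [NumberField K]
    (S : Finset (HeightOneSpectrum (𝓞 K))) {p : ℕ} (hp : p.Prime)
    (h : ∀ v ∈ S, (p : 𝓞 K) ∈ v.asIdeal) : S.card ≤ 2 ^ finrank ℚ K := by
  obtain ⟨t, ht, ht'⟩ := FA.TwoTorsionBound.fewDivisors_prime_pow K (k := 1) hp
  refine le_trans (Finset.card_le_card_of_injOn (fun v => v.asIdeal) (fun v hv => ht' _ ?_)
    fun v _ w _ e => HeightOneSpectrum.ext e) ht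
  rw [pow_one]
  exact Ideal.dvd_span_singleton.2 (h v hv)

/-- **Many small split primes.** -/
theorem exists_split_count (n : ℕ) : ∃ A : ℝ, 0 ≤ A ∧ ∀ (K : Type) [Field K] [NumberField K],
    FA.ArtinHooley.FieldRH K → finrank ℚ K = n → ∀ X : ℝ, 2 ≤ X →
      ∃ S : Finset (Ideal (𝓞 K)), (∀ P ∈ S, IsSplitPrime P ∧ (Ideal.absNorm P : ℝ) ≤ X) ∧
        (X - 2) / Real.log X -
          A * (1 + Real.log |(discr K : ℝ)|) * (√X * (1 + Real.log X) ^ 4) ≤ S.card := by
  obtain ⟨A, hA, hpi⟩ := FA.ArtinHooley.exists_piK_le.{0}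
  refine ⟨A * (1 + n) + 2 ^ n * 4, by positivity, fun K _ _ hRH hn X hX => ?_⟩
  obtain ⟨L, hL⟩ : ∃ L, L = FA.Hecke.primesLE K ⌊X⌋₊ := ⟨_, rfl⟩
  have hLmem : ∀ v, v ∈ L → (Ideal.absNorm v.asIdeal : ℝ) ≤ X := fun v hv =>
    (Nat.le_floor_iff (by linarith)).1 (FA.Hecke.mem_primesLE.1 (hL ▸ hv))
  refine ⟨(L.filter fun v => IsSplitPrime v.asIdeal).image fun v => v.asIdeal, fun P hP => ?_, ?_⟩
  · obtain ⟨v, hv, rfl⟩ := Finset.mem_image.1 hP
    exact ⟨(Finset.mem_filter.1 hv).2, hLmem v (Finset.mem_filter.1 hv).1⟩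
  rw [Finset.card_image_of_injective _ fun v w e => HeightOneSpectrum.ext e]
  obtain ⟨D, hD⟩ : ∃ D, D = (discr K).natAbs := ⟨_, rfl⟩
  have hD0 : D ≠ 0 := hD ▸ Int.natAbs_ne_zero.2 (discr_ne_zero K)
  have hDR : (D : ℝ) = |(discr K : ℝ)| := by rw [hD, Nat.cast_natAbs, Int.cast_abs]
  obtain ⟨bad, hbad⟩ : ∃ bad, bad = L.filter fun v => ¬ IsSplitPrime v.asIdeal := ⟨_, rfl⟩
  obtain ⟨Pr, hPr⟩ : ∃ Pr, Pr = (Finset.range (Nat.sqrt ⌊X⌋₊ + 1)).filter Nat.Prime ∪
      D.primeFactors := ⟨_, rfl⟩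
  have hbadcard : (bad.card : ℝ) ≤ 2 ^ n * Pr.card := by
    have hsub : bad ⊆ Pr.biUnion fun p => bad.filter fun v => (p : 𝓞 K) ∈ v.asIdeal := by
      intro v hv
      have hv' := hv
      rw [hbad, Finset.mem_filter] at hv'
      obtain ⟨p, hp, hpv, hor⟩ := not_split hv'.2
      refine Finset.mem_biUnion.2 ⟨p, ?_, Finset.mem_filter.2 ⟨hv, hpv⟩⟩
      rw [hPr, Finset.mem_union]
      rcases hor with hle | hdvd
      · refine Or.inl (Finset.mem_filter.2 ⟨Finset.mem_range.2 (Nat.lt_succ_of_le ?_), hp⟩)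
        exact Nat.le_sqrt'.2 (hle.trans (FA.Hecke.mem_primesLE.1 (hL ▸ hv'.1)))
      · exact Or.inr (Nat.mem_primeFactors.2 ⟨hp, hD ▸ hdvd, hD0⟩)
    have hprime : ∀ p ∈ Pr, p.Prime := fun p hp => by
      rw [hPr, Finset.mem_union] at hp
      exact hp.elim (fun h => (Finset.mem_filter.1 h).2) Nat.prime_of_mem_primeFactors
    have h1 := (Finset.card_le_card hsub).trans (Finset.card_biUnion_le_card_mul _ _ (2 ^ n)
      fun p hp => hn ▸ card_primes_over_le K _ (hprime p hp) fun v hv =>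
        (Finset.mem_filter.1 hv).2)
    rw [mul_comm]
    exact_mod_cast h1
  have hlX : 0 < Real.log X := Real.log_pos (by linarith)
  have hsX : 1 ≤ √X := Real.one_le_sqrt.2 (by linarith)
  have hlD : 0 ≤ Real.log |(discr K : ℝ)| := hDR ▸ Real.log_natCast_nonneg D
  have hPrcard : (Pr.card : ℝ) ≤ 4 * ((1 + Real.log |(discr K : ℝ)|) * √X) := by
    have h1 : (Pr.card : ℝ) ≤ ((Nat.sqrt ⌊X⌋₊ + 1 : ℕ) : ℝ) + D.primeFactors.card := by
      rw [hPr, ← Nat.cast_add]
      exact Nat.cast_le.2 ((Finset.card_union_le _ _).trans (Nat.add_le_add_right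
        ((Finset.card_filter_le _ _).trans (Finset.card_range _).le) _))
    have h2 : ((Nat.sqrt ⌊X⌋₊ : ℕ) : ℝ) ≤ √X := Real.nat_sqrt_le_real_sqrt.trans
      (Real.sqrt_le_sqrt (Nat.floor_le (by linarith)))
    have h3 : (D.primeFactors.card : ℝ) * Real.log 2 ≤ Real.log D := by
      rw [← Real.log_pow]
      refine Real.log_le_log (by positivity) ?_
      exact_mod_cast ((Finset.pow_card_le_prod _ _ _ fun p hp =>
        (Nat.prime_of_mem_primeFactors hp).two_le).trans
          (Nat.le_of_dvd (Nat.pos_of_ne_zero hD0) (Nat.prod_primeFactors_dvd D)))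
    rw [hDR] at h3
    push_cast at h1
    nlinarith [Real.log_two_gt_d9, mul_nonneg hlD (Real.sqrt_nonneg X),
      Nat.cast_nonneg (α := ℝ) D.primeFactors.card]
  have hint : (X - 2) / Real.log X ≤ ∫ t in (2 : ℝ)..X, 1 / Real.log t := by
    have hcont : ContinuousOn (fun t : ℝ => 1 / Real.log t) (Set.Icc 2 X) := by
      refine continuousOn_const.div (Real.continuousOn_log.mono fun t ht => ?_) fun t ht => ?_
      · exact (ne_of_gt (lt_of_lt_of_le two_pos ht.1) : t ≠ 0)
      · exact (Real.log_pos (lt_of_lt_of_le one_lt_two ht.1)).ne'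
    refine le_trans (le_of_eq ?_) (intervalIntegral.integral_mono_on hX
      (intervalIntegrable_const (c := 1 / Real.log X)) (hcont.intervalIntegrable_of_Icc hX)
      fun t ht => ?_)
    · rw [intervalIntegral.integral_const, smul_eq_mul, mul_one_div]
    · exact one_div_le_one_div_of_le (Real.log_pos (lt_of_lt_of_le one_lt_two ht.1))
        (Real.log_le_log (lt_of_lt_of_le two_pos ht.1) ht.2)
  have hlog4 : Real.log X ^ 4 ≤ (1 + Real.log X) ^ 4 :=
    pow_le_pow_left₀ hlX.le (by linarith) 4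
  have h4 : 1 ≤ (1 + Real.log X) ^ 4 := one_le_pow₀ (by linarith)
  have hp := (abs_le.1 (hpi K hRH X hX)).1
  rw [FA.DedekindPIT.piK, ← hL, FA.ArtinHooley.fieldSize, ← hD, hDR, hn] at hp
  have hsplit : ((L.filter fun v => IsSplitPrime v.asIdeal).card : ℝ) + bad.card = L.card := by
    rw [hbad, ← Nat.cast_add, Finset.card_filter_add_card_filter_not]
  have e1 : A * (1 + Real.log |(discr K : ℝ)| + n) * (√X * Real.log X ^ 4) ≤
      A * (1 + n) * (1 + Real.log |(discr K : ℝ)|) * (√X * (1 + Real.log X) ^ 4) := by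
    refine mul_le_mul ?_ (mul_le_mul_of_nonneg_left hlog4 (Real.sqrt_nonneg X)) (by positivity)
      (by positivity)
    rw [mul_assoc A]
    refine mul_le_mul_of_nonneg_left ?_ hA
    nlinarith only [mul_nonneg (Nat.cast_nonneg (α := ℝ) n) hlD]
  have e2 : (bad.card : ℝ) ≤ 2 ^ n * 4 * (1 + Real.log |(discr K : ℝ)|) *
      (√X * (1 + Real.log X) ^ 4) := by
    refine hbadcard.trans ((mul_le_mul_of_nonneg_left hPrcard (by positivity)).trans ?_)
    rw [← mul_assoc, ← mul_assoc, ← mul_assoc]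
    exact le_mul_of_one_le_right (by positivity) h4
  linarith

/-- **The bound on the Riemann hypothesis.** -/
theorem exists_torsion_bound_of_RH (n l : ℕ) (hn2 : 2 ≤ n) (hl : 1 ≤ l) {ε : ℝ} (hε : 0 < ε) :
    ∃ C : ℝ, ∀ (K : Type) [Field K] [NumberField K], FA.ArtinHooley.FieldRH K →
      finrank ℚ K = n →
      (Nat.card {x : ClassGroup (𝓞 K) // x ^ l = 1} : ℝ) ≤
        C * |(discr K : ℝ)| ^ ((1 : ℝ) / 2 - 1 / (2 * l * (n - 1) : ℕ) + ε) := by
  obtain ⟨c, hc0, hc1, hsmall⟩ := exists_small_split_bound n l hn2 hl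
  obtain ⟨A, hA, hcount⟩ := exists_split_count n
  obtain ⟨q, hq⟩ : ∃ q, q = 2 * l * (n - 1) := ⟨_, rfl⟩
  have hq0 : q ≠ 0 := by
    rw [hq]
    exact Nat.mul_ne_zero (by omega) (by omega)
  obtain ⟨u, hu⟩ : ∃ u : ℝ, u = 1 / (q : ℝ) := ⟨_, rfl⟩
  have hu0 : 0 < u := hu ▸ div_pos one_pos (Nat.cast_pos.2 (Nat.pos_of_ne_zero hq0))
  have hu1 : u ≤ 1 := by
    rw [hu, div_le_one (Nat.cast_pos.2 (Nat.pos_of_ne_zero hq0))]
    exact Nat.one_le_cast.2 (Nat.pos_of_ne_zero hq0)
  obtain ⟨δ, hδ⟩ : ∃ δ, δ = min (ε / 3) (u / 20) := ⟨_, rfl⟩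
  have hδ0 : 0 < δ := hδ ▸ lt_min (by linarith) (by linarith)
  have hδ1 : δ ≤ ε / 3 := hδ ▸ min_le_left _ _
  have hδ2 : δ ≤ u / 20 := hδ ▸ min_le_right _ _
  obtain ⟨k, hk⟩ : ∃ k, k = 1 + 1 / δ := ⟨_, rfl⟩
  have hk1 : 1 ≤ k := hk ▸ le_add_of_nonneg_right (by positivity)
  obtain ⟨C₁, hC₁, hsm⟩ := hsmall δ hδ0
  obtain ⟨C₂, hC₂, hclass⟩ := FA.TwoTorsionBound.exists_classNumber_le n hδ0
  obtain ⟨Z, hZ⟩ : ∃ Z, Z = max 1 (max (4 / c) (4 * A * k ^ 6 / c)) := ⟨_, rfl⟩
  have hZ1 : 1 ≤ Z := hZ ▸ le_max_left _ _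
  refine ⟨4 * k / c * C₁ + C₂ * Z ^ 5, fun K _ _ hRH hn => ?_⟩
  rw [← hq]
  obtain ⟨D, hD⟩ : ∃ D, D = |(discr K : ℝ)| := ⟨_, rfl⟩
  have hD1 : 1 ≤ D := by
    rw [hD, ← Int.cast_abs]
    exact_mod_cast Int.one_le_abs (discr_ne_zero K)
  rw [← hD, ← hu]
  obtain ⟨h, hh⟩ : ∃ h : ℝ, h = (Nat.card {x : ClassGroup (𝓞 K) // x ^ l = 1} : ℝ) := ⟨_, rfl⟩
  rw [← hh]
  have hexp : D ^ (1 / 2 - u + 2 * δ) ≤ D ^ (1 / 2 - u + ε) :=
    Real.rpow_le_rpow_of_exponent_le hD1 (by linarith)
  rcases lt_or_ge (D ^ (u / 5)) Z with hlt | hge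
  · have h1 : h ≤ C₂ * D ^ ((1 : ℝ) / 2 + δ) := by
      refine le_trans ?_ (hD ▸ hclass K hn)
      rw [hh, classNumber, ← Nat.card_eq_fintype_card]
      exact Nat.cast_le.2 (Nat.card_le_card_of_injective _ Subtype.val_injective)
    have h2 : D ^ u ≤ Z ^ 5 := by
      rw [show u = u / 5 * (5 : ℕ) by push_cast; ring, Real.rpow_mul (by linarith),
        Real.rpow_natCast]
      exact pow_le_pow_left₀ (Real.rpow_nonneg (by linarith) _) hlt.le 5
    refine h1.trans ?_
    calc C₂ * D ^ ((1 : ℝ) / 2 + δ) = C₂ * (D ^ u * D ^ (1 / 2 - u + δ)) := by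
          rw [← Real.rpow_add (x := D) (by linarith)]; ring_nf
      _ ≤ C₂ * (Z ^ 5 * D ^ (1 / 2 - u + ε)) := by
          refine mul_le_mul_of_nonneg_left (mul_le_mul h2
            (Real.rpow_le_rpow_of_exponent_le hD1 (by linarith)) (by positivity) (by positivity)) hC₂
      _ ≤ _ := by
          rw [← mul_assoc]
          refine mul_le_mul_of_nonneg_right (le_add_of_nonneg_left ?_) (by positivity)
          exact mul_nonneg (by positivity) hC₁
  · obtain ⟨X, hX⟩ : ∃ X, X = c * D ^ u := ⟨_, rfl⟩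
    have hDu : D ^ (u / 5) ≤ D ^ u := Real.rpow_le_rpow_of_exponent_le hD1 (by linarith)
    have hX4 : 4 ≤ X := by
      have h1 : 4 / c ≤ Z := hZ ▸ le_max_of_le_right (le_max_left _ _)
      have h2 := (div_le_iff₀ hc0).1 (h1.trans (hge.trans hDu))
      rw [hX]
      linarith
    obtain ⟨S, hS, hScard⟩ := hcount K hRH hn X (by linarith)
    rw [← hD] at hScard
    have hlogD : 1 + Real.log D ≤ k * D ^ δ := by
      have h2 := Real.log_le_rpow_div (x := D) (by linarith) hδ0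
      have h3 := Real.one_le_rpow hD1 hδ0.le
      rw [hk, add_mul, one_mul, one_div_mul_eq_div]
      linarith
    have hXD : X ≤ D := by
      rw [hX]
      refine (mul_le_of_le_one_left (by positivity) hc1).trans ?_
      exact (Real.rpow_le_rpow_of_exponent_le hD1 hu1).trans_eq (Real.rpow_one D)
    have hlX : 0 < Real.log X := Real.log_pos (by linarith)
    have hlogX : 1 + Real.log X ≤ k * D ^ δ :=
      (add_le_add_right (Real.log_le_log (by linarith) hXD) 1).trans hlogD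
    have hlow : c / (4 * k) * D ^ (u - δ) ≤ S.card := by
      have h1 : c / (2 * k) * D ^ (u - δ) ≤ (X - 2) / Real.log X := by
        rw [le_div_iff₀ hlX]
        calc c / (2 * k) * D ^ (u - δ) * Real.log X
            ≤ c / (2 * k) * D ^ (u - δ) * (k * D ^ δ) :=
              mul_le_mul_of_nonneg_left (by linarith only [hlogX]) (by positivity)
          _ = X / 2 := by
              rw [hX, Real.rpow_sub (by linarith)]
              field_simp
          _ ≤ X - 2 := by linarith only [hX4]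
      have h2 : A * (1 + Real.log D) * (√X * (1 + Real.log X) ^ 4) ≤
          c / (4 * k) * D ^ (u - δ) := by
        have hsq : √X ≤ D ^ (u / 2) := by
          rw [Real.sqrt_eq_rpow, show u / 2 = u * (1 / 2) by ring, Real.rpow_mul (by linarith)]
          refine Real.rpow_le_rpow (by linarith) ?_ (by norm_num)
          rw [hX]
          exact mul_le_of_le_one_left (by positivity) hc1
        have h3 : A * (4 * k ^ 6) ≤ c * D ^ (u / 5) := by
          have h1 : 4 * A * k ^ 6 / c ≤ Z := hZ ▸ le_max_of_le_right (le_max_right _ _)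
          have h2 := (div_le_iff₀ hc0).1 (h1.trans hge)
          linarith
        calc A * (1 + Real.log D) * (√X * (1 + Real.log X) ^ 4)
            ≤ A * (k * D ^ δ) * (D ^ (u / 2) * (k * D ^ δ) ^ 4) := by
              gcongr
          _ = A * k ^ 5 * ((D ^ δ) ^ 5 * D ^ (u / 2)) := by ring
          _ = A * k ^ 5 * D ^ (δ * (5 : ℕ) + u / 2) := by
              rw [Real.rpow_add (x := D) (by linarith), Real.rpow_mul (by linarith),
                Real.rpow_natCast]
          _ ≤ c / (4 * k) * D ^ (u / 5) * D ^ (δ * (5 : ℕ) + u / 2) := by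
              refine mul_le_mul_of_nonneg_right ?_ (by positivity)
              rw [div_mul_eq_mul_div, le_div_iff₀ (by positivity)]
              calc A * k ^ 5 * (4 * k) = A * (4 * k ^ 6) := by ring
                _ ≤ _ := h3
          _ ≤ _ := by
              rw [mul_assoc, ← Real.rpow_add (by linarith)]
              refine mul_le_mul_of_nonneg_left (Real.rpow_le_rpow_of_exponent_le hD1 ?_)
                (by positivity)
              push_cast
              linarith only [hδ2]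
      have e : c / (2 * k) * D ^ (u - δ) = 2 * (c / (4 * k) * D ^ (u - δ)) := by ring
      linarith
    have hb := hsm K hn S fun P hP => by
      rw [← hq, ← hu, ← hD, ← hX]
      exact hS P hP
    rw [← hh, ← hD] at hb
    have hpos : 0 < c / (4 * k) * D ^ (u - δ) := by positivity
    have h5 : h * (c / (4 * k) * D ^ (u - δ)) ≤ C₁ * D ^ ((1 : ℝ) / 2 + δ) :=
      le_trans (mul_le_mul_of_nonneg_left hlow (hh ▸ Nat.cast_nonneg _)) hb
    refine le_trans ((le_div_iff₀ hpos).2 h5) ?_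
    calc C₁ * D ^ ((1 : ℝ) / 2 + δ) / (c / (4 * k) * D ^ (u - δ))
        = 4 * k / c * C₁ * (D ^ ((1 : ℝ) / 2 + δ) / D ^ (u - δ)) := by field_simp
      _ = 4 * k / c * C₁ * D ^ (1 / 2 - u + 2 * δ) := by
          rw [← Real.rpow_sub (by linarith)]; ring_nf
      _ ≤ _ := mul_le_mul (le_add_of_nonneg_right (mul_nonneg hC₂ (by positivity))) hexp
          (by positivity) (add_nonneg (mul_nonneg (by positivity) hC₁)
            (mul_nonneg hC₂ (by positivity)))

end FA.EllenbergVenkatesh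

end
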