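import Mathlib.NumberTheory.NumberField.Discriminant.Basic
import Mathlib.RingTheory.Ideal.Norm.RelNorm
import Mathlib.LinearAlgebra.Matrix.Basis
import Mathlib.RingTheory.RamificationInertia.Basic

/-!
# Generators given by two prime ideals of degree one

If `(δ) Q ^ l = (δ') P ^ l` with `P ≠ Q` and `P` unramified of degree one, then `δ / δ'` generates
`K`. If `δ / δ'` generates `K` and `δ, δ' ∈ A`, the `δ ^ i δ' ^ (n - 1 - i)` span a sublattice of
`A ^ (n - 1)`, so `|d| N A ^ (2 (n - 1)) ≤ (n!) ² ∏ max (|φ δ|, |φ δ'|) ^ (2 (n - 1))`.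
-/

set_option autoImplicit false
set_option linter.style.haveILetI false

noncomputable section

namespace FA.EllenbergVenkatesh

open NumberField Module IntermediateField
open scoped Matrix

variable {K : Type} [Field K] [NumberField K]

/-- A prime of degree one, unramified over `ℚ`. -/
def IsSplitPrime (P : Ideal (𝓞 K)) : Prop :=
  (Ideal.absNorm P).Prime ∧ ¬ P ^ 2 ∣ Ideal.span {(Ideal.absNorm P : 𝓞 K)}

theorem IsSplitPrime.isPrime {P : Ideal (𝓞 K)} (h : IsSplitPrime P) : P.IsPrime :=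
  Ideal.isPrime_of_irreducible_absNorm h.1

theorem IsSplitPrime.prime {P : Ideal (𝓞 K)} (h : IsSplitPrime P) : Prime P :=
  Ideal.prime_of_isPrime (fun e => h.1.ne_zero (by rw [e, Ideal.absNorm_bot])) h.isPrime

/-- **`δ / δ'` generates `K`.** -/
theorem adjoin_eq_top {δ δ' : 𝓞 K} (hδ : δ ≠ 0) (hδ' : δ' ≠ 0) {P Q : Ideal (𝓞 K)}
    (hP : IsSplitPrime P) (hQ : Q.IsPrime) (hQ0 : Q ≠ ⊥) (hne : P ≠ Q) {l : ℕ} (hl : l ≠ 0)
    (h : Ideal.span {δ} * Q ^ l = Ideal.span {δ'} * P ^ l) :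
    ℚ⟮(δ : K) / (δ' : K)⟯ = ⊤ := by
  classical
  obtain ⟨F, hF⟩ : ∃ F, F = ℚ⟮(δ : K) / (δ' : K)⟯ := ⟨_, rfl⟩
  rw [← hF]
  by_contra htop
  have hk : 2 ≤ finrank F K := by
    have h0 : 0 < finrank F K := Module.finrank_pos
    have h1 : finrank F K ≠ 1 := fun e => htop (IntermediateField.finrank_eq_one_iff_eq_top.1 e)
    omega
  obtain ⟨α, hα⟩ : ∃ α : F, (α : K) = (δ : K) / (δ' : K) :=
    ⟨⟨_, hF ▸ mem_adjoin_simple_self ℚ _⟩, rfl⟩
  obtain ⟨a, b, hb, hab⟩ := IsFractionRing.div_surjective (A := 𝓞 F) α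
  have hb0 : b ≠ 0 := nonZeroDivisors.ne_zero hb
  have hinj : Function.Injective (algebraMap (𝓞 F) (𝓞 K)) := FaithfulSMul.algebraMap_injective _ _
  have hδb : δ * algebraMap (𝓞 F) (𝓞 K) b = δ' * algebraMap (𝓞 F) (𝓞 K) a := by
    apply RingOfIntegers.ext
    have hd : (δ' : K) ≠ 0 := RingOfIntegers.coe_ne_zero_iff.2 hδ'
    have hb' : (((b : F) : K)) ≠ 0 := by simpa using hb0
    have e : ((a : F) : K) / ((b : F) : K) = (δ : K) / (δ' : K) := by
      rw [← hα, ← hab]; rfl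
    rw [div_eq_div_iff hb' hd] at e
    show (δ : K) * ((b : F) : K) = (δ' : K) * ((a : F) : K)
    linear_combination -e
  have ha0 : a ≠ 0 := fun e => by
    rw [e, map_zero, mul_zero, mul_eq_zero] at hδb
    exact hδb.elim hδ fun e' => hb0 (hinj (by rw [e', map_zero]))
  obtain ⟨f, hf⟩ : ∃ f : Ideal (𝓞 F) → Ideal (𝓞 K),
      ∀ I, f I = I.map (algebraMap (𝓞 F) (𝓞 K)) := ⟨_, fun _ => rfl⟩
  have key : f (Ideal.span {a}) * Q ^ l = f (Ideal.span {b}) * P ^ l := by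
    rw [hf, hf, Ideal.map_span, Ideal.map_span, Set.image_singleton, Set.image_singleton]
    refine mul_left_cancel₀ (a := Ideal.span {δ'}) (by simpa using hδ') ?_
    rw [← mul_assoc, ← mul_assoc, Ideal.span_singleton_mul_span_singleton, ← hδb,
      ← Ideal.span_singleton_mul_span_singleton, mul_right_comm, h, mul_right_comm]
  -- the prime of `F` below `P`
  obtain ⟨p, hp⟩ : ∃ p, p = Ideal.absNorm P := ⟨_, rfl⟩
  haveI := hP.isPrime
  obtain ⟨Pm, hPm⟩ : ∃ Pm, Pm = P.comap (algebraMap (𝓞 F) (𝓞 K)) := ⟨_, rfl⟩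
  haveI hPmp : Pm.IsPrime := hPm ▸ Ideal.comap_isPrime _ P
  have hpPm : (p : 𝓞 F) ∈ Pm := by
    rw [hPm, Ideal.mem_comap, map_natCast, hp]
    exact Ideal.absNorm_mem P
  have hPm0 : Pm ≠ ⊥ := fun e => hP.1.ne_zero (by
    rw [e, Ideal.mem_bot, Nat.cast_eq_zero] at hpPm
    exact hp ▸ hpPm)
  have hPmprime : Prime Pm := Ideal.prime_of_isPrime hPm0 hPmp
  have hPdvd : P ∣ f Pm := Ideal.dvd_iff_le.2 (hf Pm ▸ Ideal.map_le_iff_le_comap.2 hPm.le)
  have hfp : f Pm ∣ Ideal.span {(p : 𝓞 K)} := by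
    rw [hf, ← map_natCast (algebraMap (𝓞 F) (𝓞 K)) p, ← Set.image_singleton, ← Ideal.map_span,
      Ideal.dvd_iff_le]
    exact Ideal.map_mono ((Ideal.span_singleton_le_iff_mem _).2 hpPm)
  obtain ⟨R, hR⟩ := hPdvd
  have hPR : ¬ P ∣ R := fun hd => hP.2 (by
    rw [← hp, pow_two]
    exact (hR ▸ mul_dvd_mul_left P hd).trans hfp)
  obtain ⟨R', hR'p, hR'⟩ : ∃ R', Prime R' ∧ R' ∣ R := by
    have hN : ¬ IsUnit R := by
      intro hu
      rw [Ideal.isUnit_iff] at hu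
      rw [hu, Ideal.mul_top, hf] at hR
      have h1 := congrArg Ideal.absNorm hR
      rw [Ideal.absNorm_algebraMap, ← hp] at h1
      rw [← IsFractionRing.finrank_eq (𝓞 F) F (𝓞 K) K] at h1
      have h2 : p.Prime := hp ▸ hP.1
      rw [← h1] at h2
      exact Nat.Prime.not_prime_pow hk h2
    obtain ⟨R', hR', hd⟩ := WfDvdMonoid.exists_irreducible_factor hN
      (fun e => hPm0 ((Ideal.map_eq_bot_iff_of_injective hinj).1 (by rw [← hf, hR, e, mul_zero]; rfl)))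
    exact ⟨R', hR'.prime, hd⟩
  haveI hR'prime : R'.IsPrime := Ideal.isPrime_of_prime hR'p
  have hne' : R' ≠ P := fun e => hPR (e ▸ hR')
  have hunder : R'.comap (algebraMap (𝓞 F) (𝓞 K)) = Pm := by
    refine ((hPmp.isMaximal hPm0).eq_of_le (Ideal.comap_isPrime _ R').ne_top ?_).symm
    rw [← Ideal.map_le_iff_le_comap, ← hf, ← Ideal.dvd_iff_le, hR]
    exact hR'.mul_left P
  -- the powers of `Pm`
  have hsplit : ∀ x : 𝓞 F, x ≠ 0 → ∃ i A, ¬ Pm ∣ A ∧ f (Ideal.span {x}) = P ^ i * R ^ i * f A := by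
    intro x hx
    obtain ⟨i, A, hA, e⟩ := WfDvdMonoid.max_power_factor (a₀ := Ideal.span {x})
      (by simpa using hx) hPmprime.irreducible
    refine ⟨i, A, hA, ?_⟩
    rw [e, hf, hf, Ideal.map_mul, Ideal.map_pow, ← hf, hR, mul_pow]
  have hnot : ∀ A : Ideal (𝓞 F), ¬ Pm ∣ A → ∀ S : Ideal (𝓞 K),
      S.comap (algebraMap (𝓞 F) (𝓞 K)) = Pm → ¬ S ∣ f A := by
    intro A hA S hS hd
    rw [hf, Ideal.dvd_iff_le, Ideal.map_le_iff_le_comap, hS, ← Ideal.dvd_iff_le] at hd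
    exact hA hd
  obtain ⟨i, A, hA, hAe⟩ := hsplit a ha0
  obtain ⟨j, B, hB, hBe⟩ := hsplit b hb0
  rw [hAe, hBe] at key
  have hPp := hP.prime
  have hQp : Prime Q := Ideal.prime_of_isPrime hQ0 hQ
  have hPQ : ¬ P ∣ Q := fun hd => hne (associated_iff_eq.1 (hPp.associated_of_dvd hQp hd))
  have hnP : ∀ (m : ℕ) (A : Ideal (𝓞 F)), ¬ Pm ∣ A → ∀ T, ¬ P ∣ T → ¬ P ∣ R ^ m * f A * T := by
    intro m A hA T hT hd
    rcases hPp.dvd_or_dvd hd with hd | hd
    · rcases hPp.dvd_or_dvd hd with hd | hd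
      · exact hPR (hPp.dvd_of_dvd_pow hd)
      · exact hnot A hA P hPm.symm hd
    · exact hT hd
  have hP1 : ¬ P ∣ (1 : Ideal (𝓞 K)) := hPp.not_dvd_one
  have hPQl : ¬ P ∣ Q ^ l := fun hd => hPQ (hPp.dvd_of_dvd_pow hd)
  have hij : i = j + l := by
    rcases lt_trichotomy i (j + l) with hlt | heq | hgt
    · exfalso
      obtain ⟨d, hd⟩ : ∃ d, j + l = i + (d + 1) := ⟨j + l - i - 1, by omega⟩
      have key' : P ^ i * (R ^ i * f A * Q ^ l) = P ^ i * (P * (P ^ d * R ^ j * f B)) := by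
        calc P ^ i * (R ^ i * f A * Q ^ l) = P ^ i * R ^ i * f A * Q ^ l := by ring
          _ = P ^ (j + l) * (R ^ j * f B) := by rw [key]; ring
          _ = _ := by rw [hd]; ring
      exact hnP i A hA _ hPQl ⟨_, mul_left_cancel₀ (pow_ne_zero _ hPp.ne_zero) key'⟩
    · exact heq
    · exfalso
      obtain ⟨d, hd⟩ : ∃ d, i = j + l + (d + 1) := ⟨i - (j + l) - 1, by omega⟩
      have key' : P ^ (j + l) * (R ^ j * f B * 1) =
          P ^ (j + l) * (P * (P ^ d * R ^ i * f A * Q ^ l)) := by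
        calc P ^ (j + l) * (R ^ j * f B * 1) = P ^ j * R ^ j * f B * P ^ l := by ring
          _ = P ^ i * R ^ i * f A * Q ^ l := key.symm
          _ = _ := by nth_rw 1 [hd]; ring
      exact hnP j B hB _ hP1 ⟨_, mul_left_cancel₀ (pow_ne_zero _ hPp.ne_zero) key'⟩
  subst hij
  refine hnot B hB R' hunder (hR'.trans ⟨R ^ (l - 1) * f A * Q ^ l, ?_⟩)
  have hR0 : R ≠ 0 := fun e => hPR (e ▸ dvd_zero P)
  refine mul_left_cancel₀ (pow_ne_zero (j + l) hPp.ne_zero)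
    (mul_left_cancel₀ (pow_ne_zero j hR0) ?_)
  calc R ^ j * (P ^ (j + l) * f B) = P ^ j * R ^ j * f B * P ^ l := by ring
    _ = P ^ (j + l) * R ^ (j + l) * f A * Q ^ l := key.symm
    _ = _ := by
      obtain ⟨l, rfl⟩ := Nat.exists_eq_succ_of_ne_zero hl
      simp only [Nat.succ_eq_add_one, Nat.add_sub_cancel]
      ring

theorem natAbs_det_dvd {A : Ideal (𝓞 K)} {ι : Type} [Fintype ι] [DecidableEq ι]
    (b : Basis ι ℤ (𝓞 K)) (hA : A ≠ ⊥) (y : ι → 𝓞 K) (hy : ∀ i, y i ∈ A) :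
    Ideal.absNorm A ∣ ((b.toMatrix y).det).natAbs := by
  obtain ⟨bI⟩ : Nonempty (Basis ι ℤ A) :=
    ⟨(Ideal.selfBasis b A hA)⟩
  rw [← Ideal.natAbs_det_basis_change b A bI, Basis.det_apply]
  have h : b.toMatrix y = b.toMatrix ((↑) ∘ bI) * bI.toMatrix fun i => (⟨y i, hy i⟩ : A) := by
    ext k i
    rw [Matrix.mul_apply]
    have hs := congrArg (fun z : A => b.repr (z : 𝓞 K) k) (bI.sum_repr ⟨y i, hy i⟩)
    simp only [Basis.toMatrix_apply]
    refine hs.symm.trans ?_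
    rw [Submodule.coe_sum, map_sum, Finsupp.coe_finsetSum, Finset.sum_apply]
    refine Finset.sum_congr rfl fun x _ => ?_
    rw [Submodule.coe_smul_of_tower, map_zsmul, Finsupp.smul_apply, smul_eq_mul, mul_comm]
    rfl
  rw [h, Matrix.det_mul, Int.natAbs_mul]
  exact dvd_mul_right _ _

theorem abs_det_powers_le {n : ℕ} (u v : Fin n → ℂ) :
    ‖(Matrix.of fun j i : Fin n => u j ^ (i : ℕ) * v j ^ (n - 1 - (i : ℕ))).det‖ ≤
      (n.factorial : ℝ) * ∏ j, max ‖u j‖ ‖v j‖ ^ (n - 1) := by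
  rw [Matrix.det_apply']
  refine (norm_sum_le _ _).trans ((Finset.sum_le_sum (g := fun _ => ∏ j, max ‖u j‖ ‖v j‖ ^ (n - 1))
    fun σ _ => ?_).trans_eq ?_)
  · rw [norm_mul, norm_prod]
    rcases Int.units_eq_one_or (Equiv.Perm.sign σ) with e | e <;>
    · rw [e]
      simp only [Units.val_one, Units.val_neg, Int.cast_one, Int.cast_neg, norm_neg, norm_one,
        one_mul, Matrix.of_apply, norm_mul, norm_pow]
      rw [← Equiv.prod_comp σ fun j => max ‖u j‖ ‖v j‖ ^ (n - 1)]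
      refine Finset.prod_le_prod (fun j _ => by positivity) fun j _ => ?_
      refine (mul_le_mul (pow_le_pow_left₀ (norm_nonneg _) (le_max_left _ ‖v (σ j)‖) _)
        (pow_le_pow_left₀ (norm_nonneg _) (le_max_right ‖u (σ j)‖ _) _) (by positivity)
        (by positivity)).trans_eq ?_
      rw [← pow_add]
      congr 1
      omega
  · rw [Finset.sum_const, Finset.card_univ, Fintype.card_perm, Fintype.card_fin, nsmul_eq_mul]

/-- **Discriminant and generators.** -/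
theorem discr_mul_absNorm_le (δ δ' : 𝓞 K) (hgen : ℚ⟮(δ : K) / (δ' : K)⟯ = ⊤) (hδ' : δ' ≠ 0)
    (A : Ideal (𝓞 K)) (hA : δ ∈ A) (hA' : δ' ∈ A) :
    |(discr K : ℝ)| * (Ideal.absNorm A : ℝ) ^ (2 * (finrank ℚ K - 1)) ≤
      ((finrank ℚ K).factorial : ℝ) ^ 2 *
        (∏ φ : K →+* ℂ, max ‖φ (δ : K)‖ ‖φ (δ' : K)‖) ^ (2 * (finrank ℚ K - 1)) := by
  classical
  obtain ⟨n, hn⟩ : ∃ n, n = finrank ℚ K := ⟨_, rfl⟩
  rw [← hn]
  have hA0 : A ≠ ⊥ := fun e => hδ' (by rwa [e, Ideal.mem_bot] at hA')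
  obtain ⟨x, hx⟩ : ∃ x, x = (δ : K) / (δ' : K) := ⟨_, rfl⟩
  rw [← hx] at hgen
  have hd : (δ' : K) ≠ 0 := RingOfIntegers.coe_ne_zero_iff.2 hδ'
  obtain ⟨y, hy⟩ : ∃ y : Fin n → 𝓞 K, ∀ i, y i = δ ^ (i : ℕ) * δ' ^ (n - 1 - (i : ℕ)) :=
    ⟨_, fun _ => rfl⟩
  have hyK : ∀ i : Fin n, (y i : K) = x ^ (i : ℕ) * (δ' : K) ^ (n - 1) := fun i => by
    rw [hy, hx, div_pow]
    have h1 : (δ' : K) ^ (n - 1) = (δ' : K) ^ (i : ℕ) * (δ' : K) ^ (n - 1 - (i : ℕ)) := by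
      rw [← pow_add]; congr 1; omega
    rw [h1, ← mul_assoc, div_mul_cancel₀ _ (pow_ne_zero _ hd)]
    rfl
  have hint : IsIntegral ℚ x := Algebra.IsIntegral.isIntegral _
  have hdeg : (minpoly ℚ x).natDegree = n := by
    rw [← adjoin.finrank hint, hgen, IntermediateField.finrank_top', hn]
  have hli : LinearIndependent ℚ fun i : Fin n => (y i : K) := by
    have h1 : LinearIndependent ℚ fun i : Fin n => x ^ (i : ℕ) :=
      (linearIndependent_pow x).comp (Fin.cast hdeg.symm) (Fin.cast_injective _)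
    have h2 := h1.map' (LinearMap.mulRight ℚ ((δ' : K) ^ (n - 1)))
      (LinearMap.ker_eq_bot.2 fun a b e => mul_right_cancel₀ (pow_ne_zero _ hd) e)
    simpa only [Function.comp_def, LinearMap.mulRight_apply, ← hyK] using h2
  obtain ⟨σ⟩ : Nonempty (Free.ChooseBasisIndex ℤ (𝓞 K) ≃ Fin n) :=
    ⟨Fintype.equivFinOfCardEq (by
      rw [← finrank_eq_card_chooseBasisIndex, RingOfIntegers.rank, hn])⟩
  obtain ⟨b, hb⟩ : ∃ b, b = (RingOfIntegers.basis K).reindex σ := ⟨_, rfl⟩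
  obtain ⟨bK, hbK⟩ : ∃ bK, bK = (integralBasis K).reindex σ := ⟨_, rfl⟩
  have hbb : ∀ i, bK i = (b i : K) := fun i => by
    rw [hb, hbK, Basis.reindex_apply, Basis.reindex_apply, integralBasis_apply]
  obtain ⟨M, hM⟩ : ∃ M, M = (b.toMatrix y).det := ⟨_, rfl⟩
  have hdiscr : Algebra.discr ℚ (fun i => (y i : K)) = (M : ℚ) ^ 2 * discr K := by
    have h1 : (fun i => (y i : K)) =
        ⇑bK ᵥ* ((b.toMatrix y).map (Int.castRingHom ℚ)).map (algebraMap ℚ K) := funext fun i => by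
      conv_lhs => rw [← b.sum_repr (y i)]
      simp only [RingOfIntegers.coe_eq_algebraMap, map_sum, Matrix.vecMul, dotProduct,
        Matrix.map_apply, Basis.toMatrix_apply, hbb, zsmul_eq_mul]
      refine Finset.sum_congr rfl fun k _ => ?_
      simp [mul_comm]
    rw [h1, Algebra.discr_of_matrix_vecMul, hM, ← RingHom.mapMatrix_apply, ← RingHom.map_det,
      eq_intCast, hbK, Basis.coe_reindex, Algebra.discr_reindex, ← coe_discr]
  have hne : Algebra.discr ℚ (fun i => (y i : K)) ≠ 0 := by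
    have hc : Fintype.card (Fin n) = finrank ℚ K := by rw [Fintype.card_fin, hn]
    haveI : Nonempty (Fin n) := ⟨⟨0, hn ▸ finrank_pos⟩⟩
    have := Algebra.discr_not_zero_of_basis ℚ (basisOfLinearIndependentOfCardEqFinrank hli hc)
    rwa [coe_basisOfLinearIndependentOfCardEqFinrank] at this
  have hM0 : M ≠ 0 := fun e => hne (by rw [hdiscr, e]; simp)
  have hN : (Ideal.absNorm A : ℝ) ^ (n - 1) ≤ |(M : ℝ)| := by
    have h1 := natAbs_det_dvd b (A := A ^ (n - 1)) (pow_ne_zero _ hA0) y fun i => by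
      rw [hy, show A ^ (n - 1) = A ^ (i : ℕ) * A ^ (n - 1 - (i : ℕ)) by
        rw [← pow_add]; congr 1; omega]
      exact Ideal.mul_mem_mul (Ideal.pow_mem_pow hA _) (Ideal.pow_mem_pow hA' _)
    rw [← hM, map_pow] at h1
    rw [← Int.cast_abs, Int.abs_eq_natAbs, Int.cast_natCast, ← Nat.cast_pow]
    exact Nat.cast_le.2 (Nat.le_of_dvd (Int.natAbs_pos.2 hM0) h1)
  obtain ⟨e⟩ : Nonempty (Fin n ≃ (K →+* ℂ)) :=
    ⟨(Fintype.equivFinOfCardEq (by rw [Embeddings.card, hn])).symm⟩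
  obtain ⟨E, hE⟩ : ∃ E, E = Algebra.embeddingsMatrixReindex ℚ ℂ (fun i => (y i : K))
      (e.trans (RingHom.equivRatAlgHom K ℂ)) := ⟨_, rfl⟩
  have hET : Eᵀ = Matrix.of fun j i : Fin n =>
      e j (δ : K) ^ (i : ℕ) * e j (δ' : K) ^ (n - 1 - (i : ℕ)) := by
    ext j i
    rw [hE, Matrix.transpose_apply, Matrix.of_apply]
    show e j ((y i : K)) = _
    rw [hy, RingOfIntegers.coe_eq_algebraMap, map_mul, map_pow, map_pow, map_mul, map_pow, map_pow]
  have h2 := Algebra.discr_eq_det_embeddingsMatrixReindex_pow_two ℚ ℂ (fun i => (y i : K))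
    (e.trans (RingHom.equivRatAlgHom K ℂ))
  rw [← hE, ← Matrix.det_transpose E, hET, eq_ratCast, hdiscr] at h2
  have h3 := congrArg (fun z : ℂ => ‖z‖) h2
  simp only [Rat.cast_mul, Rat.cast_pow, Rat.cast_intCast, norm_mul, norm_pow,
    Complex.norm_intCast] at h3
  calc |(discr K : ℝ)| * (Ideal.absNorm A : ℝ) ^ (2 * (n - 1))
      ≤ |(discr K : ℝ)| * |(M : ℝ)| ^ 2 := by
        rw [mul_comm 2, pow_mul]
        gcongr
    _ ≤ ((n.factorial : ℝ) * ∏ j, max ‖e j (δ : K)‖ ‖e j (δ' : K)‖ ^ (n - 1)) ^ 2 := by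
        rw [mul_comm, h3]
        exact pow_le_pow_left₀ (norm_nonneg _) (abs_det_powers_le _ _) 2
    _ = _ := by
        rw [mul_pow, Finset.prod_pow, ← pow_mul, mul_comm (n - 1),
          e.prod_comp fun φ => max ‖φ (δ : K)‖ ‖φ (δ' : K)‖]

end FA.EllenbergVenkatesh

end
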