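import Fermat.Agent.EllenbergVenkatesh.Generator
import Fermat.Agent.TwoTorsionBound.Classes

/-!
# The lemma of Ellenberg and Venkatesh

For `c ^ l = 1` and a prime `P`, Minkowski gives an integral `I` with `c [P] [I] = 1`,
`N I = O (√|d|)` and `(P I) ^ l = (δ)` with balanced `δ`. The pair `(c, P)` is fixed by `I` and by
the position of the conjugates of `δ` up to the factor `e` as long as the norms of the primes stay
below a small multiple of `|d| ^ (1 / (2 l (n - 1)))`.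
-/

set_option autoImplicit false

noncomputable section

namespace FA.EllenbergVenkatesh

open NumberField NumberField.InfinitePlace NumberField.mixedEmbedding Module MeasureTheory
open scoped nonZeroDivisors ENNReal NNReal

/-- **The ideals of bounded norm.** -/
theorem exists_ideal_count (n : ℕ) {ε : ℝ} (hε : 0 < ε) : ∃ C : ℝ, 0 ≤ C ∧
    ∀ (K : Type) [Field K] [NumberField K], finrank ℚ K = n → ∀ R : ℝ, 1 ≤ R →
      ∀ s : Finset (Ideal (𝓞 K)), (∀ I ∈ s, I ≠ ⊥ ∧ (Ideal.absNorm I : ℝ) ≤ R) →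
        (s.card : ℝ) ≤ C * R ^ (1 + ε) := by
  obtain ⟨c, hc, hdiv⟩ := FA.RepresentationBound.card_divisors_isBigO (ε / (n + 1)) (by positivity)
  refine ⟨c ^ n, by positivity, fun K _ _ hn R hR s hs => ?_⟩
  classical
  have hall := fun j : ℕ => fun hj : j ≠ 0 => FA.TwoTorsionBound.fewDivisors_natCast K (j := j) hj
  simp only [FA.TwoTorsionBound.FewDivisors] at hall
  choose! t ht ht' using hall
  have hsub : s ⊆ (Finset.Icc 1 ⌊R⌋₊).biUnion t := fun I hI => by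
    have h1 : Ideal.absNorm I ≠ 0 := fun e => (hs I hI).1 (Ideal.absNorm_eq_zero_iff.1 e)
    exact Finset.mem_biUnion.2 ⟨Ideal.absNorm I, Finset.mem_Icc.2 ⟨Nat.one_le_iff_ne_zero.2 h1,
      Nat.le_floor (hs I hI).2⟩, ht' _ h1 _ (Ideal.dvd_span_singleton.2 (Ideal.absNorm_mem _))⟩
  have hbound : ∀ j ∈ Finset.Icc 1 ⌊R⌋₊, ((t j).card : ℝ) ≤ c ^ n * R ^ ε := fun j hj => by
    rw [Finset.mem_Icc] at hj
    have hj0 : j ≠ 0 := by omega
    refine (Nat.cast_le.2 (ht j hj0)).trans ?_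
    rw [hn, Nat.cast_pow]
    refine (pow_le_pow_left₀ (Nat.cast_nonneg _) (hdiv j hj0) n).trans ?_
    rw [mul_pow, ← Real.rpow_natCast (_ ^ _), ← Real.rpow_mul (Nat.cast_nonneg _)]
    refine mul_le_mul_of_nonneg_left ((Real.rpow_le_rpow (Nat.cast_nonneg _)
      ((Nat.cast_le.2 hj.2).trans (Nat.floor_le (by linarith))) (by positivity)).trans
      (Real.rpow_le_rpow_of_exponent_le hR ?_)) (by positivity)
    rw [div_mul_eq_mul_div, div_le_iff₀ (by positivity)]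
    nlinarith
  calc (s.card : ℝ) ≤ ∑ j ∈ Finset.Icc 1 ⌊R⌋₊, ((t j).card : ℝ) := by
        exact_mod_cast (Finset.card_le_card hsub).trans Finset.card_biUnion_le
    _ ≤ ∑ _j ∈ Finset.Icc 1 ⌊R⌋₊, c ^ n * R ^ ε := Finset.sum_le_sum hbound
    _ ≤ R * (c ^ n * R ^ ε) := by
        rw [Finset.sum_const, Nat.card_Icc, Nat.add_sub_cancel, nsmul_eq_mul]
        exact mul_le_mul_of_nonneg_right (Nat.floor_le (by linarith)) (by positivity)
    _ = _ := by rw [Real.rpow_add (by linarith), Real.rpow_one]; ring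

variable (K : Type) [Field K] [NumberField K]

/-- **The ideal attached to a class and an ideal.** -/
theorem exists_balanced {c : ClassGroup (𝓞 K)} {l : ℕ} (hl : l ≠ 0) (hc : c ^ l = 1)
    (P : (Ideal (𝓞 K))⁰) :
    ∃ (I : (Ideal (𝓞 K))⁰) (δ : 𝓞 K), c * ClassGroup.mk0 P * ClassGroup.mk0 I = 1 ∧
      Ideal.span {δ} = ((P : Ideal (𝓞 K)) * I) ^ l ∧
      (Ideal.absNorm (I : Ideal (𝓞 K)) : ℝ) ≤
        3 ^ finrank ℚ K * Real.sqrt |(discr K : ℝ)| ∧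
      ∀ φ : K →+* ℂ, ‖φ (δ : K)‖ ≤
        (3 * |(discr K : ℝ)| ^ ((1 : ℝ) / (2 * finrank ℚ K)) *
          (Ideal.absNorm (P : Ideal (𝓞 K)) : ℝ) ^ ((1 : ℝ) / finrank ℚ K)) ^ l := by
  classical
  obtain ⟨J₀, hJ₀⟩ := ClassGroup.mk0_surjective c
  have hJ0 : (J₀ : Ideal (𝓞 K)) ≠ 0 := nonZeroDivisors.coe_ne_zero J₀
  have hP0 : (P : Ideal (𝓞 K)) ≠ 0 := nonZeroDivisors.coe_ne_zero P
  have hpr : ((J₀ : Ideal (𝓞 K)) ^ l).IsPrincipal := by
    have h : ClassGroup.mk0 (J₀ ^ l) = 1 := by rw [map_pow, hJ₀, hc]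
    rw [show J₀ ^ l = ⟨(J₀ : Ideal (𝓞 K)) ^ l, pow_mem J₀.2 l⟩ from
      Subtype.ext (SubmonoidClass.coe_pow J₀ l), ClassGroup.mk0_eq_one_iff (pow_mem J₀.2 l)] at h
    exact h
  obtain ⟨β₀, hβ₀⟩ := hpr.principal
  rw [Ideal.submodule_span_eq] at hβ₀
  have hβ₀0 : β₀ ≠ 0 := fun e => pow_ne_zero l hJ0 (by rw [hβ₀, e]; simp)
  obtain ⟨n, hn⟩ : ∃ n, n = finrank ℚ K := ⟨_, rfl⟩
  rw [← hn]
  have hn0 : (0 : ℝ) < n := by rw [hn]; exact Nat.cast_pos.2 finrank_pos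
  obtain ⟨T, hT⟩ : ∃ T, T = 3 * |(discr K : ℝ)| ^ ((1 : ℝ) / (2 * n)) *
      (Ideal.absNorm (P : Ideal (𝓞 K)) : ℝ) ^ ((1 : ℝ) / n) := ⟨_, rfl⟩
  rw [← hT]
  have hT0 : 0 ≤ T := hT ▸ by positivity
  have hTn : T ^ n =
      3 ^ n * Real.sqrt |(discr K : ℝ)| * Ideal.absNorm (P : Ideal (𝓞 K)) := by
    rw [hT, mul_pow, mul_pow, ← Real.rpow_natCast (|(discr K : ℝ)| ^ _),
      ← Real.rpow_mul (abs_nonneg _), Real.sqrt_eq_rpow,
      ← Real.rpow_natCast ((Ideal.absNorm (P : Ideal (𝓞 K)) : ℝ) ^ _),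
      ← Real.rpow_mul (Nat.cast_nonneg _), show (1 : ℝ) / (2 * n) * n = 1 / 2 by field_simp,
      show (1 : ℝ) / n * n = 1 by field_simp, Real.rpow_one]
  obtain ⟨f, hf⟩ : ∃ f : InfinitePlace K → ℝ≥0,
      f = fun w => (T * (w (β₀ : K)) ^ ((1 : ℝ) / l)).toNNReal := ⟨_, rfl⟩
  have hnorm : ∏ w : InfinitePlace K, w (β₀ : K) ^ mult w =
      ((Ideal.absNorm (J₀ : Ideal (𝓞 K)) : ℝ)) ^ l := by
    rw [prod_eq_abs_norm, ← Algebra.coe_norm_int, ← Int.cast_abs, Int.abs_eq_natAbs,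
      ← Ideal.absNorm_span_singleton, ← hβ₀, map_pow]
    push_cast
    ring
  obtain ⟨J, hJ⟩ : ∃ J, J = J₀ * P := ⟨_, rfl⟩
  have hfprod : ((∏ w, f w ^ mult w : ℝ≥0) : ℝ) =
      3 ^ n * Real.sqrt |(discr K : ℝ)| * Ideal.absNorm (J : Ideal (𝓞 K)) := by
    push_cast
    rw [hf]
    simp only [Real.coe_toNNReal _ (mul_nonneg hT0 (Real.rpow_nonneg (apply_nonneg _ _) _)),
      mul_pow, Finset.prod_mul_distrib]
    rw [Finset.prod_pow_eq_pow_sum, sum_mult_eq, ← hn, hTn, hJ, Submonoid.coe_mul, map_mul,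
      Nat.cast_mul, mul_assoc _ (Ideal.absNorm (P : Ideal (𝓞 K)) : ℝ)]
    congr 1
    rw [mul_comm (Ideal.absNorm (J₀ : Ideal (𝓞 K)) : ℝ)]
    congr 1
    rw [← Real.pow_rpow_inv_natCast (Nat.cast_nonneg (Ideal.absNorm (J₀ : Ideal (𝓞 K)))) hl,
      ← hnorm, ← one_div, ← Real.finsetProd_rpow _ _ fun w _ => pow_nonneg (apply_nonneg w _) _]
    refine Finset.prod_congr rfl fun w _ => ?_
    rw [← Real.rpow_natCast, ← Real.rpow_natCast,
      ← Real.rpow_mul (apply_nonneg w _), ← Real.rpow_mul (apply_nonneg w _), mul_comm]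
  have hvol : minkowskiBound K (FractionalIdeal.mk0 K J) < volume (convexBodyLT K f) := by
    rw [minkowskiBound, volume_fundamentalDomain_fractionalIdealLatticeBasis,
      volume_fundamentalDomain_latticeBasis, convexBodyLT_volume, mixedEmbedding.finrank, ← hn,
      FractionalIdeal.coe_mk0, FractionalIdeal.coeIdeal_absNorm, Rat.cast_natCast,
      ENNReal.ofReal_natCast]
    calc (Ideal.absNorm (J : Ideal (𝓞 K)) : ℝ≥0∞) *
          (2⁻¹ ^ nrComplexPlaces K * (NNReal.sqrt ‖discr K‖₊ : ℝ≥0∞)) * 2 ^ n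
        ≤ (Ideal.absNorm (J : Ideal (𝓞 K)) : ℝ≥0∞) *
            (1 * (NNReal.sqrt ‖discr K‖₊ : ℝ≥0∞)) * 2 ^ n := by
          gcongr
          exact pow_le_one₀ (by norm_num) (by norm_num)
      _ < 1 * ((∏ w, f w ^ mult w : ℝ≥0) : ℝ≥0∞) := by
          rw [one_mul, one_mul, ← ENNReal.coe_natCast, ← ENNReal.coe_ofNat, ← ENNReal.coe_pow,
            ← ENNReal.coe_mul, ← ENNReal.coe_mul, ENNReal.coe_lt_coe, ← NNReal.coe_lt_coe, hfprod]
          push_cast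
          rw [Int.norm_eq_abs]
          have h3 : (2 : ℝ) ^ n < 3 ^ n :=
            pow_lt_pow_left₀ (by norm_num) (by norm_num) (by rw [hn]; exact finrank_pos.ne')
          have hN : (0 : ℝ) < Ideal.absNorm (J : Ideal (𝓞 K)) :=
            Nat.cast_pos.2 (Nat.pos_of_ne_zero (Ideal.absNorm_ne_zero_of_nonZeroDivisors J))
          have hD : 0 < Real.sqrt |(discr K : ℝ)| :=
            Real.sqrt_pos.2 (abs_pos.2 (Int.cast_ne_zero.2 (discr_ne_zero K)))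
          nlinarith [mul_lt_mul_of_pos_left h3 (mul_pos hN hD)]
      _ ≤ _ := by
          gcongr
          exact_mod_cast one_le_convexBodyLTFactor K
  obtain ⟨γK, hγmem, hγ0, hγw⟩ := exists_ne_zero_mem_ideal_lt K (FractionalIdeal.mk0 K J) hvol
  rw [FractionalIdeal.coe_mk0] at hγmem
  obtain ⟨γ, hγ, rfl⟩ := (FractionalIdeal.mem_coeIdeal _).1 hγmem
  obtain ⟨I, hI⟩ := (Ideal.dvd_span_singleton (I := (J : Ideal (𝓞 K)))).2 hγ
  have hγ0' : γ ≠ 0 := fun e => hγ0 (by rw [e, map_zero])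
  have hI0 : I ≠ 0 := fun e => hγ0' (by
    rw [e, mul_zero, Ideal.zero_eq_bot, Ideal.span_singleton_eq_bot] at hI
    exact hI)
  have hJc : (J : Ideal (𝓞 K)) = (J₀ : Ideal (𝓞 K)) * P := by rw [hJ, Submonoid.coe_mul]
  obtain ⟨δ, hδ⟩ : β₀ ∣ γ ^ l := by
    rw [← Ideal.span_singleton_le_span_singleton, ← hβ₀, ← Ideal.span_singleton_pow, hI, hJc,
      mul_pow, mul_pow, mul_assoc]
    exact Ideal.mul_le_left
  refine ⟨⟨I, mem_nonZeroDivisors_of_ne_zero hI0⟩, δ, ?_, ?_, ?_, fun φ => ?_⟩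
  · rw [← hJ₀, ← map_mul, ← map_mul, ← hJ]
    exact (ClassGroup.mk0_eq_one_iff _).2 ⟨γ, hI.symm⟩
  · show Ideal.span {δ} = ((P : Ideal (𝓞 K)) * I) ^ l
    refine mul_left_cancel₀ (pow_ne_zero l hJ0) ?_
    rw [← mul_pow, ← mul_assoc, ← hJc, ← hI, Ideal.span_singleton_pow, hδ, hβ₀,
      Ideal.span_singleton_mul_span_singleton]
  · have h1 : ((Ideal.absNorm (Ideal.span {γ}) : ℕ) : ℝ) ≤
        3 ^ n * Real.sqrt |(discr K : ℝ)| * Ideal.absNorm (J : Ideal (𝓞 K)) := by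
      have hNQ : ((Algebra.norm ℤ γ : ℤ) : ℝ) = ((Algebra.norm ℚ (γ : K) : ℚ) : ℝ) := by
        rw [← Algebra.coe_norm_int, Rat.cast_intCast]
      rw [← hfprod, Ideal.absNorm_span_singleton, Nat.cast_natAbs, Int.cast_abs, hNQ,
        ← Rat.cast_abs, ← prod_eq_abs_norm]
      push_cast
      exact Finset.prod_le_prod (fun w _ => pow_nonneg (apply_nonneg w _) _)
        fun w _ => pow_le_pow_left₀ (apply_nonneg w _) (hγw w).le _
    rw [hI, map_mul, Nat.cast_mul, mul_comm] at h1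
    exact le_of_mul_le_mul_right h1
      (Nat.cast_pos.2 (Nat.pos_of_ne_zero (Ideal.absNorm_ne_zero_of_nonZeroDivisors J)))
  · obtain ⟨w, hw⟩ : ∃ w, w = InfinitePlace.mk φ := ⟨_, rfl⟩
    have hb0 : 0 < w (β₀ : K) := pos_iff.2 (RingOfIntegers.coe_ne_zero_iff.2 hβ₀0)
    have h1 : w (γ : K) ≤ T * (w (β₀ : K)) ^ ((1 : ℝ) / l) := by
      refine (hγw w).le.trans_eq ?_
      rw [hf]
      exact Real.coe_toNNReal _ (mul_nonneg hT0 (Real.rpow_nonneg hb0.le _))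
    have h2 : w (γ : K) ^ l = w (β₀ : K) * w (δ : K) := by
      rw [← map_pow, ← map_mul, show (γ : K) ^ l = ((γ ^ l : 𝓞 K) : K) from
        (map_pow (algebraMap (𝓞 K) K) γ l).symm, hδ]
      rfl
    have h3 : w (δ : K) ≤ T ^ l := by
      refine le_of_mul_le_mul_left ?_ hb0
      rw [← h2]
      refine (pow_le_pow_left₀ (apply_nonneg w _) h1 l).trans_eq ?_
      rw [mul_pow, one_div, Real.rpow_inv_natCast_pow hb0.le hl, mul_comm]
    subst hw
    exact (InfinitePlace.apply φ _).ge.trans h3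

theorem inv_pow_le_norm {δ : 𝓞 K} (hδ : δ ≠ 0) {B : ℝ} (hB : 1 ≤ B)
    (hb : ∀ φ : K →+* ℂ, ‖φ (δ : K)‖ ≤ B) (φ₀ : K →+* ℂ) :
    1 ≤ ‖φ₀ (δ : K)‖ * B ^ finrank ℚ K := by
  classical
  obtain ⟨N, hN⟩ : ∃ N, N = Algebra.norm ℤ δ := ⟨_, rfl⟩
  have h1 : (1 : ℝ) ≤ ‖((N : ℤ) : ℂ)‖ := by
    rw [Complex.norm_intCast, ← Int.cast_abs]
    exact_mod_cast Int.one_le_abs (hN ▸ Algebra.norm_ne_zero_iff.2 hδ)
  have h2 : ((N : ℤ) : ℂ) = ∏ φ : K →+* ℂ, φ (δ : K) := by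
    have e := Algebra.norm_eq_prod_embeddings ℚ ℂ (δ : K)
    rw [← Algebra.coe_norm_int, ← hN, eq_ratCast, Rat.cast_intCast] at e
    rw [e]
    exact (Fintype.prod_equiv (RingHom.equivRatAlgHom K ℂ) _ _ fun φ => rfl).symm
  rw [h2, norm_prod, ← Finset.mul_prod_erase _ _ (Finset.mem_univ φ₀)] at h1
  refine h1.trans (mul_le_mul_of_nonneg_left ?_ (norm_nonneg _))
  refine (Finset.prod_le_prod (fun φ _ => norm_nonneg _) fun φ _ => hb φ).trans ?_
  rw [Finset.prod_const]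
  refine pow_le_pow_right₀ hB ?_
  rw [Finset.card_erase_of_mem (Finset.mem_univ _), Finset.card_univ, Embeddings.card]
  omega

theorem card_Icc_neg_self (W : ℕ) : ((Finset.Icc (-(W : ℤ)) W).card : ℝ) = 2 * W + 1 := by
  rw [Int.card_Icc, show ((W : ℤ) + 1 - -(W : ℤ)) = ((2 * W + 1 : ℕ) : ℤ) by push_cast; ring,
    Int.toNat_natCast]
  push_cast
  ring

/-- **Separation**: two small split primes cannot share the ideal and the position. -/
theorem eq_of_same_position {l : ℕ} (hl : l ≠ 0) {P P' : Ideal (𝓞 K)} (hP : IsSplitPrime P)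
    (hP' : IsSplitPrime P') {A : Ideal (𝓞 K)} (hA : A ≠ ⊥) {δ δ' : 𝓞 K}
    (h : Ideal.span {δ} = P ^ l * A) (h' : Ideal.span {δ'} = P' ^ l * A)
    (hk : ∀ φ : K →+* ℂ, ⌊Real.log ‖φ (δ : K)‖⌋ = ⌊Real.log ‖φ (δ' : K)‖⌋) {X : ℝ}
    (hX : (Ideal.absNorm P' : ℝ) ≤ X)
    (hsmall : ((finrank ℚ K).factorial : ℝ) ^ 2 *
      Real.exp (finrank ℚ K) ^ (2 * (finrank ℚ K - 1)) * X ^ (2 * l * (finrank ℚ K - 1)) <
        |(discr K : ℝ)|) :
    P = P' := by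
  by_contra hne
  have hne0 : ∀ (Q : Ideal (𝓞 K)) (x : 𝓞 K), IsSplitPrime Q → Ideal.span {x} = Q ^ l * A →
      x ≠ 0 := fun Q x hQ hx e => by
    rw [e, Ideal.span_singleton_zero] at hx
    exact mul_ne_zero (pow_ne_zero l hQ.prime.ne_zero) hA hx.symm
  have hδ : δ ≠ 0 := hne0 P δ hP h
  have hδ' : δ' ≠ 0 := hne0 P' δ' hP' h'
  have hgen := adjoin_eq_top hδ hδ' hP hP'.isPrime hP'.prime.ne_zero hne hl
    (by rw [h, h']; ring)
  have hmem : δ ∈ A := by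
    have := Ideal.mem_span_singleton_self δ
    rw [h] at this
    exact Ideal.mul_le_right this
  have hmem' : δ' ∈ A := by
    have := Ideal.mem_span_singleton_self δ'
    rw [h'] at this
    exact Ideal.mul_le_right this
  have h3 := discr_mul_absNorm_le δ δ' hgen hδ' A hmem hmem'
  obtain ⟨n, hn⟩ : ∃ n, n = finrank ℚ K := ⟨_, rfl⟩
  rw [← hn] at h3 hsmall
  have hA0 : (0 : ℝ) < Ideal.absNorm A :=
    Nat.cast_pos.2 (Nat.pos_of_ne_zero fun e => hA (Ideal.absNorm_eq_zero_iff.1 e))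
  have hpos : ∀ x : 𝓞 K, x ≠ 0 → ∀ φ : K →+* ℂ, 0 < ‖φ (x : K)‖ := fun x hx φ =>
    norm_pos_iff.2 ((map_ne_zero φ).2 (RingOfIntegers.coe_ne_zero_iff.2 hx))
  have h4 : ∀ φ : K →+* ℂ, max ‖φ (δ : K)‖ ‖φ (δ' : K)‖ ≤ Real.exp 1 * ‖φ (δ' : K)‖ := by
    intro φ
    refine max_le ?_ (le_mul_of_one_le_left (norm_nonneg _) (Real.one_le_exp zero_le_one))
    rw [← Real.exp_log (hpos δ hδ φ), ← Real.exp_log (hpos δ' hδ' φ), ← Real.exp_add,
      Real.exp_le_exp]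
    have := Int.abs_sub_lt_one_of_floor_eq_floor (hk φ)
    linarith [(abs_lt.1 this).2]
  have h5 : ∏ φ : K →+* ℂ, ‖φ (δ' : K)‖ =
      (Ideal.absNorm A : ℝ) * (Ideal.absNorm P' : ℝ) ^ l := by
    have e := Algebra.norm_eq_prod_embeddings ℚ ℂ (δ' : K)
    rw [← Algebra.coe_norm_int, eq_ratCast, Rat.cast_intCast] at e
    have e2 := congrArg (fun z : ℂ => ‖z‖) e
    simp only [Complex.norm_intCast, norm_prod] at e2
    rw [← (Fintype.prod_equiv (RingHom.equivRatAlgHom K ℂ)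
      (fun φ => ‖φ (δ' : K)‖) _ fun φ => rfl)] at e2
    rw [← e2, ← Int.cast_abs, Int.abs_eq_natAbs, Int.cast_natCast,
      ← Ideal.absNorm_span_singleton, h', map_mul, map_pow, Nat.cast_mul, Nat.cast_pow]
    ring
  have h6 : (∏ φ : K →+* ℂ, max ‖φ (δ : K)‖ ‖φ (δ' : K)‖) ≤
      Real.exp n * ((Ideal.absNorm A : ℝ) * X ^ l) := by
    refine (Finset.prod_le_prod (fun φ _ => le_max_of_le_left (norm_nonneg _))
      fun φ _ => h4 φ).trans ?_
    rw [Finset.prod_mul_distrib, Finset.prod_const, Finset.card_univ, Embeddings.card, ← hn,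
      ← Real.exp_nat_mul, mul_one, h5]
    gcongr
  have h7 := h3.trans (mul_le_mul_of_nonneg_left (pow_le_pow_left₀
    (Finset.prod_nonneg fun φ _ => le_max_of_le_left (norm_nonneg _)) h6 _) (sq_nonneg _))
  rw [mul_pow, mul_pow, ← pow_mul,
    show l * (2 * (n - 1)) = 2 * l * (n - 1) by ring] at h7
  refine (not_lt.2 ?_) hsmall
  refine le_of_mul_le_mul_right (h7.trans_eq ?_) (pow_pos hA0 (2 * (n - 1)))
  ring

theorem log_box_le {n l : ℕ} {D b : ℝ} {W : ℕ} {t : ℝ} (hD : 1 ≤ D) (ht : 0 < t)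
    (hb : b ≤ 2 * l * (1 + Real.log D)) (hW : (W : ℝ) ≤ n * b + 2) :
    2 * (W : ℝ) + 1 ≤ (2 * ((n : ℝ) * (2 * l) + 2) + 1) * (1 + 1 / t) * D ^ t := by
  have hlog : 1 + Real.log D ≤ (1 + 1 / t) * D ^ t := by
    have h2 := Real.log_le_rpow_div (x := D) (by linarith) ht
    have h3 := Real.one_le_rpow hD ht.le
    rw [add_mul, one_mul, one_div_mul_eq_div]
    linarith
  rw [mul_assoc]
  refine le_trans ?_ (mul_le_mul_of_nonneg_left hlog (by positivity))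
  nlinarith [mul_le_mul_of_nonneg_left hb (Nat.cast_nonneg (α := ℝ) n), Real.log_nonneg hD]

/-- **Many small split primes leave room for few classes killed by `l`.** -/
theorem exists_small_split_bound (n l : ℕ) (hn2 : 2 ≤ n) (hl : 1 ≤ l) :
    ∃ c : ℝ, 0 < c ∧ c ≤ 1 ∧ ∀ ε : ℝ, 0 < ε → ∃ C : ℝ, 0 ≤ C ∧
      ∀ (K : Type) [Field K] [NumberField K], finrank ℚ K = n →
      ∀ S : Finset (Ideal (𝓞 K)), (∀ P ∈ S, IsSplitPrime P ∧ (Ideal.absNorm P : ℝ) ≤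
          c * |(discr K : ℝ)| ^ ((1 : ℝ) / (2 * l * (n - 1) : ℕ))) →
        (Nat.card {x : ClassGroup (𝓞 K) // x ^ l = 1} : ℝ) * S.card ≤
          C * |(discr K : ℝ)| ^ ((1 : ℝ) / 2 + ε) := by
  obtain ⟨q, hq⟩ : ∃ q, q = 2 * l * (n - 1) := ⟨_, rfl⟩
  have hq0 : q ≠ 0 := by
    rw [hq]
    exact Nat.mul_ne_zero (by omega) (by omega)
  obtain ⟨κ, hκ⟩ : ∃ κ : ℝ, κ = 2 * (n.factorial : ℝ) ^ 2 * Real.exp n ^ (2 * (n - 1)) := ⟨_, rfl⟩
  have hκ1 : 1 ≤ κ := by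
    have h1 : (1 : ℝ) ≤ (n.factorial : ℝ) ^ 2 :=
      one_le_pow₀ (Nat.one_le_cast.2 n.factorial_pos)
    have h2 : (1 : ℝ) ≤ Real.exp n ^ (2 * (n - 1)) :=
      one_le_pow₀ (Real.one_le_exp (Nat.cast_nonneg n))
    rw [hκ]
    nlinarith
  obtain ⟨c, hc⟩ : ∃ c : ℝ, c = κ⁻¹ ^ ((q : ℝ)⁻¹) := ⟨_, rfl⟩
  have hc0 : 0 < c := hc ▸ Real.rpow_pos_of_pos (by positivity) _
  have hc1 : c ≤ 1 := hc ▸ Real.rpow_le_one (by positivity) (inv_le_one_of_one_le₀ hκ1) (by positivity)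
  have hcq : c ^ q = κ⁻¹ := hc ▸ Real.rpow_inv_natCast_pow (by positivity) hq0
  refine ⟨c, hc0, hc1, fun ε hε => ?_⟩
  obtain ⟨C₁, hC₁, hcount⟩ := exists_ideal_count n (half_pos hε)
  obtain ⟨t, ht⟩ : ∃ t, t = ε / (2 * n) := ⟨_, rfl⟩
  have ht0 : 0 < t := ht ▸ div_pos hε (by positivity)
  obtain ⟨a, ha⟩ : ∃ a : ℝ, a = n * (2 * l) + 2 := ⟨_, rfl⟩
  have ha0 : 0 ≤ a := ha ▸ by positivity
  refine ⟨C₁ * ((3 : ℝ) ^ n) ^ (1 + ε / 2) * ((2 * a + 1) * (1 + 1 / t)) ^ n, by positivity,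
    fun K _ _ hn S hS => ?_⟩
  classical
  obtain ⟨D, hD⟩ : ∃ D, D = |(discr K : ℝ)| := ⟨_, rfl⟩
  have hD1 : 1 ≤ D := by
    rw [hD, ← Int.cast_abs]
    exact_mod_cast Int.one_le_abs (discr_ne_zero K)
  rw [← hD]
  obtain ⟨X, hX⟩ : ∃ X, X = c * D ^ ((1 : ℝ) / q) := ⟨_, rfl⟩
  simp only [← hq, ← hD, ← hX] at hS
  have hXq : X ^ q * κ = D := by
    rw [hX, mul_pow, hcq, ← Real.rpow_natCast (D ^ _), ← Real.rpow_mul (by linarith),
      one_div_mul_cancel (Nat.cast_ne_zero.2 hq0), Real.rpow_one]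
    field_simp
  have hXD : X ≤ D := by
    rw [hX]
    refine (mul_le_of_le_one_left (by positivity) hc1).trans ?_
    refine (Real.rpow_le_rpow_of_exponent_le hD1 ?_).trans_eq (Real.rpow_one D)
    rw [div_le_one (Nat.cast_pos.2 (Nat.pos_of_ne_zero hq0))]
    exact Nat.one_le_cast.2 (Nat.pos_of_ne_zero hq0)
  have hsmall : (n.factorial : ℝ) ^ 2 * Real.exp n ^ (2 * (n - 1)) * X ^ q < D := by
    have : 0 < X ^ q * κ := hXq.symm ▸ (by linarith : (0 : ℝ) < D)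
    rw [hκ] at this
    rw [← hXq, hκ]
    nlinarith only [this]
  -- the classes
  obtain ⟨G, hG⟩ : ∃ G : Finset (ClassGroup (𝓞 K)), G = Finset.univ.filter fun x => x ^ l = 1 :=
    ⟨_, rfl⟩
  rw [Nat.card_eq_fintype_card, Fintype.card_subtype, ← hG, ← Nat.cast_mul, ← Finset.card_product]
  -- the ideals
  have hrep : ∀ p ∈ G ×ˢ S, ∃ (I : (Ideal (𝓞 K))⁰) (δ : 𝓞 K) (P : (Ideal (𝓞 K))⁰),
      (P : Ideal (𝓞 K)) = p.2 ∧ p.1 * ClassGroup.mk0 P * ClassGroup.mk0 I = 1 ∧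
      Ideal.span {δ} = ((P : Ideal (𝓞 K)) * I) ^ l ∧
      (Ideal.absNorm (I : Ideal (𝓞 K)) : ℝ) ≤ 3 ^ n * Real.sqrt D ∧
      ∀ φ : K →+* ℂ, ‖φ (δ : K)‖ ≤ (3 * D * D) ^ l := by
    intro p hp
    rw [Finset.mem_product, hG, Finset.mem_filter] at hp
    have hP := hS _ hp.2
    obtain ⟨I, δ, h1, h2, h3, h4⟩ := exists_balanced K (by omega : l ≠ 0) hp.1.2
      ⟨p.2, mem_nonZeroDivisors_of_ne_zero hP.1.prime.ne_zero⟩
    rw [hn, ← hD] at h3 h4
    refine ⟨I, δ, _, rfl, h1, h2, h3, fun φ => (h4 φ).trans ?_⟩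
    refine pow_le_pow_left₀ (by positivity) ?_ l
    refine mul_le_mul (mul_le_mul_of_nonneg_left ?_ (by norm_num)) ?_ (by positivity) (by positivity)
    · refine (Real.rpow_le_rpow_of_exponent_le hD1 ?_).trans_eq (Real.rpow_one D)
      rw [div_le_one (by positivity)]
      have : (2 : ℝ) ≤ n := by exact_mod_cast hn2
      linarith
    · refine (Real.rpow_le_rpow (Nat.cast_nonneg _) (hP.2.trans hXD) (by positivity)).trans ?_
      refine (Real.rpow_le_rpow_of_exponent_le hD1 ?_).trans_eq (Real.rpow_one D)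
      rw [div_le_one (by positivity)]
      exact Nat.one_le_cast.2 (by omega)
  choose! I δ P hP hcl hspan hnorm hsize using hrep
  obtain ⟨k, hk⟩ : ∃ k : ClassGroup (𝓞 K) × Ideal (𝓞 K) → (K →+* ℂ) → ℤ,
      ∀ p φ, k p φ = ⌊Real.log ‖φ (δ p : K)‖⌋ := ⟨_, fun _ _ => rfl⟩
  have hδ0 : ∀ p ∈ G ×ˢ S, δ p ≠ 0 := fun p hp e => by
    have h := hspan p hp
    rw [e, Ideal.span_singleton_zero] at h
    exact pow_ne_zero l (mul_ne_zero (nonZeroDivisors.coe_ne_zero (P p))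
      (nonZeroDivisors.coe_ne_zero (I p))) h.symm
  have hpos : ∀ p ∈ G ×ˢ S, ∀ φ : K →+* ℂ, 0 < ‖φ (δ p : K)‖ := fun p hp φ =>
    norm_pos_iff.2 ((map_ne_zero φ).2 (RingOfIntegers.coe_ne_zero_iff.2 (hδ0 p hp)))
  obtain ⟨b, hb⟩ : ∃ b : ℝ, b = l * (Real.log 3 + 2 * Real.log D) := ⟨_, rfl⟩
  have hb0 : 0 ≤ b := hb ▸ mul_nonneg (Nat.cast_nonneg _)
    (add_nonneg (Real.log_nonneg (by norm_num)) (mul_nonneg zero_le_two (Real.log_nonneg hD1)))
  have hblog : Real.log ((3 * D * D) ^ l) = b := by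
    rw [hb, Real.log_pow, Real.log_mul (by positivity) (by positivity),
      Real.log_mul (by norm_num) (by positivity)]
    ring
  obtain ⟨W, hW⟩ : ∃ W : ℕ, W = ⌈(n : ℝ) * b + 1⌉₊ := ⟨_, rfl⟩
  obtain ⟨T, hT⟩ : ∃ T : Finset (Ideal (𝓞 K)),
      T = (G ×ˢ S).image fun p => (I p : Ideal (𝓞 K)) := ⟨_, rfl⟩
  have hrange : ∀ p ∈ G ×ˢ S, k p ∈ Fintype.piFinset fun _ : K →+* ℂ =>
      Finset.Icc (-(W : ℤ)) W := by
    intro p hp
    rw [Fintype.mem_piFinset]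
    intro φ
    rw [Finset.mem_Icc, hk]
    have hB1 : (1 : ℝ) ≤ (3 * D * D) ^ l := one_le_pow₀ (by nlinarith)
    have h1 := inv_pow_le_norm K (hδ0 p hp) hB1 (hsize p hp) φ
    rw [hn] at h1
    have h2 := Real.log_le_log one_pos h1
    rw [Real.log_one, Real.log_mul (hpos p hp φ).ne' (by positivity), Real.log_pow, hblog] at h2
    have h3 := Real.log_le_log (hpos p hp φ) (hsize p hp φ)
    rw [hblog] at h3
    have h4 : (n : ℝ) * b + 1 ≤ W := hW ▸ Nat.le_ceil _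
    constructor
    · rw [Int.le_floor]
      push_cast
      linarith only [h2, h3, h4, hb0]
    · refine Int.floor_le_iff.2 ?_
      push_cast
      have : (2 : ℝ) ≤ n := by exact_mod_cast hn2
      nlinarith only [this, h3, h4, hb0]
  have hinj : Set.InjOn (fun p => ((I p : Ideal (𝓞 K)), k p)) ↑(G ×ˢ S) := by
    intro p hp p' hp' e
    rw [Finset.mem_coe] at hp hp'
    simp only [Prod.mk.injEq] at e
    obtain ⟨eI, ek⟩ := e
    have eI' : I p = I p' := Subtype.ext eI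
    have eP : p.2 = p'.2 := by
      have hS1 := hS _ (Finset.mem_product.1 hp).2
      have hS2 := hS _ (Finset.mem_product.1 hp').2
      have h1 := hspan p hp
      have h2 := hspan p' hp'
      rw [hP p hp, mul_pow] at h1
      rw [hP p' hp', ← eI', mul_pow] at h2
      refine eq_of_same_position K (by omega : l ≠ 0) hS1.1 hS2.1
        (pow_ne_zero l (nonZeroDivisors.coe_ne_zero (I p))) h1 h2
        (fun φ => by rw [← hk, ← hk, ek]) hS2.2 ?_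
      rw [hn, ← hD, ← hq]
      exact hsmall
    have eQ : P p = P p' := Subtype.ext (by rw [hP p hp, hP p' hp', eP])
    refine Prod.ext ?_ eP
    have h1 := hcl p hp
    have h2 := hcl p' hp'
    rw [← eI', ← eQ] at h2
    exact mul_right_cancel (mul_right_cancel (h1.trans h2.symm))
  have hR1 : 1 ≤ 3 ^ n * Real.sqrt D :=
    one_le_mul_of_one_le_of_one_le (one_le_pow₀ (by norm_num)) (Real.one_le_sqrt.2 hD1)
  have h1 : ((G ×ˢ S).card : ℝ) ≤ T.card * (2 * (W : ℝ) + 1) ^ n := by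
    rw [← Finset.card_image_of_injOn hinj]
    refine (Nat.cast_le.2 (Finset.card_le_card (t := T ×ˢ Fintype.piFinset fun _ : K →+* ℂ =>
      Finset.Icc (-(W : ℤ)) W) fun x hx => ?_)).trans_eq ?_
    · obtain ⟨p, hp, rfl⟩ := Finset.mem_image.1 hx
      exact Finset.mem_product.2 ⟨hT ▸ Finset.mem_image_of_mem _ hp, hrange p hp⟩
    · rw [Finset.card_product, Fintype.card_piFinset, Nat.cast_mul, Nat.cast_prod,
        Finset.prod_congr rfl fun _ _ => card_Icc_neg_self W, Finset.prod_const, Finset.card_univ,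
        Embeddings.card, hn]
  have h2 := hcount K hn _ hR1 T fun J hJ => by
    rw [hT] at hJ
    obtain ⟨p, hp, rfl⟩ := Finset.mem_image.1 hJ
    exact ⟨nonZeroDivisors.coe_ne_zero (I p), hnorm p hp⟩
  have h3 : (2 * (W : ℝ) + 1) ≤ (2 * a + 1) * (1 + 1 / t) * D ^ t := by
    have hl3 : Real.log 3 ≤ 2 := by
      linarith only [Real.log_le_sub_one_of_pos (show (0 : ℝ) < 3 by norm_num)]
    rw [ha]
    refine log_box_le hD1 ht0 (b := b) ?_ ?_
    · rw [hb]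
      nlinarith only [hl3, Nat.cast_nonneg (α := ℝ) l, Real.log_nonneg hD1]
    · rw [hW]
      linarith only [(Nat.ceil_lt_add_one
        (add_nonneg (mul_nonneg (Nat.cast_nonneg n) hb0) zero_le_one) :
        ((⌈(n : ℝ) * b + 1⌉₊ : ℕ) : ℝ) < (n : ℝ) * b + 1 + 1)]
  refine h1.trans ((mul_le_mul h2 (pow_le_pow_left₀ (by positivity) h3 n) (by positivity)
    (by positivity)).trans ?_)
  have hn0 : (n : ℝ) ≠ 0 := Nat.cast_ne_zero.2 (by omega)
  rw [Real.mul_rpow (by positivity) (Real.sqrt_nonneg _), mul_pow _ (D ^ t),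
    ← Real.rpow_natCast (D ^ t), ← Real.rpow_mul (by linarith only [hD1]), Real.sqrt_eq_rpow,
    ← Real.rpow_mul (by linarith only [hD1]), show t * n = ε / 2 by rw [ht]; field_simp]
  calc C₁ * (((3 : ℝ) ^ n) ^ (1 + ε / 2) * D ^ (1 / 2 * (1 + ε / 2))) *
        (((2 * a + 1) * (1 + 1 / t)) ^ n * D ^ (ε / 2))
      = C₁ * ((3 : ℝ) ^ n) ^ (1 + ε / 2) * ((2 * a + 1) * (1 + 1 / t)) ^ n *
          D ^ (1 / 2 * (1 + ε / 2) + ε / 2) := by
        rw [Real.rpow_add (x := D) (by linarith only [hD1])]; ring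
    _ ≤ _ := by
        refine mul_le_mul_of_nonneg_left (Real.rpow_le_rpow_of_exponent_le hD1 ?_) (by positivity)
        linarith only [hε]

end FA.EllenbergVenkatesh

end
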